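import Fermat.Agent.HerbrandRibet.GrasBridge
import Fermat.Agent.HerbrandRibet.Reflection
import Fermat.Agent.IwasawaControl.Control
import Fermat.Agent.Root.SummaryKummerIndex

/-!
# The odd parts are cyclic if `p ∤ h⁺`

`i + k = p`, `i` odd. A character of weight `i` of the classes of `ℚ(ζ_p)` is given by a radical
`b` of weight `k`. If `p ∤ h⁺` the ideal `(b)` is the `p`-th power of a principal ideal, and modulo
roots of unity and `p`-th powers all units of weight `k` are powers of the projection of `1 - ζ`,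
by Kummer's index theorem. So two characters are proportional and the part `ω ^ i` is cyclic.

Classical.
-/

set_option autoImplicit false
set_option linter.unusedSectionVars false
set_option linter.style.haveILetI false

noncomputable section

open scoped Classical Pointwise nonZeroDivisors
open NumberField NumberField.IsCMField IsDedekindDomain FA.ArtinRec FA.AmbClass FA.HerbrandRibet
open FA.Kolyvagin (lamU)
open FA.Ext (sigmaK sigmaU sigmaCl)
open FA.CycloTower (actCl)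
open FA.IwasawaStructure (expo)
open FA.IwasawaControl (pLvl wPart wProj wProj_mem wProj_of_mem wProj_actCl)

namespace FA.VandiverStructure

section group

variable {p : ℕ} [hp : Fact p.Prime]

/-- A finite group of `p`-power exponent whose characters of order `p` are proportional is
cyclic. -/
theorem isCyclic_of_char {G : Type*} [CommGroup G] {N : ℕ} (hG : ∀ x : G, x ^ p ^ N = 1)
    (h : ∀ f g : G →* Multiplicative (ZMod p), f ≠ 1 → ∃ c : ℕ, ∀ x, g x = f x ^ c) :
    IsCyclic G := by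
  have hroot : ∀ H : Subgroup G, (∀ x : G, ∃ y ∈ H, ∃ z : G, x = y * z ^ p) → H = ⊤ := fun H hH =>
    eq_top_iff.2 fun x _ => by
      have : ∀ j, ∀ x : G, ∃ y ∈ H, ∃ z : G, x = y * z ^ p ^ j := fun j => by
        induction j with
        | zero => exact fun x => ⟨1, H.one_mem, x, by rw [pow_zero, pow_one, one_mul]⟩
        | succ j ih =>
          intro x
          obtain ⟨y, hy, z, rfl⟩ := ih x
          obtain ⟨y', hy', z', rfl⟩ := hH z
          exact ⟨y * y' ^ p ^ j, H.mul_mem hy (pow_mem hy' _), z', by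
            rw [mul_pow, ← pow_mul, ← pow_succ', mul_assoc]⟩
      obtain ⟨y, hy, z, rfl⟩ := this N x
      rwa [hG, mul_one]
  by_cases hall : ∀ x : G, ∃ z, x = z ^ p
  · have hb : (⊥ : Subgroup G) = ⊤ := hroot ⊥ fun x =>
      ⟨1, Subgroup.one_mem _, (hall x).choose, by rw [one_mul]; exact (hall x).choose_spec⟩
    exact isCyclic_iff_exists_zpowers_eq_top.2 ⟨1, by rw [Subgroup.zpowers_one_eq_bot, hb]⟩
  push Not at hall
  obtain ⟨a, ha⟩ := hall
  obtain ⟨f, hfa⟩ := FA.Ext.exists_hom_ne_one p ha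
  refine isCyclic_iff_exists_zpowers_eq_top.2 ⟨a, hroot _ fun x => ?_⟩
  set S := Subgroup.zpowers a ⊔ (powMonoidHom p : G →* G).range with hS
  suffices x ∈ S by
    obtain ⟨y, hy, _, ⟨z, rfl⟩, h⟩ := Subgroup.mem_sup.1 this
    exact ⟨y, hy, z, h.symm⟩
  by_contra hx
  obtain ⟨ψ, hψ⟩ := FA.Ext.exists_hom_ne_one p (A := G ⧸ S) (t := (x : G ⧸ S)) fun y hy => hx (by
    obtain ⟨z, rfl⟩ := QuotientGroup.mk_surjective y
    refine (QuotientGroup.eq_one_iff x).1 ?_
    rw [hy, ← QuotientGroup.mk_pow, QuotientGroup.eq_one_iff]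
    exact Subgroup.mem_sup_right ⟨z, rfl⟩)
  obtain ⟨c, hc⟩ := h f (ψ.comp (QuotientGroup.mk' S)) fun h1 => hfa (by rw [h1]; rfl)
  have hfp : ∀ y : G, f y ^ p = 1 := fun y => Multiplicative.toAdd.injective (by
    rw [toAdd_pow, nsmul_eq_mul, ZMod.natCast_self, zero_mul]; rfl)
  have h1 : f a ^ c = 1 := by
    rw [← hc, MonoidHom.comp_apply, QuotientGroup.mk'_apply,
      (QuotientGroup.eq_one_iff a).2 (Subgroup.mem_sup_left (Subgroup.mem_zpowers a)), map_one]
  obtain ⟨c', rfl⟩ : p ∣ c := by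
    rw [← orderOf_eq_prime (hfp a) hfa]
    exact orderOf_dvd_of_pow_eq_one h1
  exact hψ (by
    show (ψ.comp (QuotientGroup.mk' S)) x = 1
    rw [hc, pow_mul, hfp, one_pow])

end group

variable {p : ℕ} [hp : Fact p.Prime]

section radical

variable {K : Type*} [Field K] [NumberField K]

/-- **The radical determines the character.** -/
theorem map_eq_pow_of_radical {ζ : K} (hζ : IsPrimitiveRoot ζ p) {b₁ b₂ w : Kˣ}
    {φ₁ φ₂ : ClassGroup (𝓞 K) →* Multiplicative (ZMod p)} (h1 : IsResChar p ζ b₁ φ₁)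
    (h2 : IsResChar p ζ b₂ φ₂) {c : ℕ} (hb : b₂ = b₁ ^ c * w ^ p) (C : ClassGroup (𝓞 K)) :
    φ₂ C = φ₁ C ^ c := by
  haveI : NeZero p := ⟨hp.out.ne_zero⟩
  set S : Set (HeightOneSpectrum (𝓞 K)) :=
    {v | (p : 𝓞 K) ∈ v.asIdeal} ∪ {v | ord v b₁ ≠ 0} ∪ {v | ord v w ≠ 0}
  have hS : S.Finite := ((finite_natCast_mem (p := p)).union (finite_ord_ne_zero b₁)).union
    (finite_ord_ne_zero w)
  have hle : Subgroup.closure (FA.Catalan.degreeOneClasses S) ≤
      MonoidHom.eqLocus φ₂ ((powMonoidHom c).comp φ₁) := by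
    refine (Subgroup.closure_le _).2 ?_
    rintro _ ⟨v, hv, -, rfl⟩
    show φ₂ (primeCls v) = φ₁ (primeCls v) ^ c
    simp only [S, Set.mem_union, Set.mem_ofPred_eq, not_or, not_not] at hv
    obtain ⟨⟨hvp, hv1⟩, hvw⟩ := hv
    have hv2 : ord v b₂ = 0 := by rw [hb, ord_mul, ord_pow, ord_pow, hv1, hvw]; simp
    have h := res_mul hζ (res_pow hζ (h1 v hvp hv1) c) (res_pow_self hζ hvp hvw)
    rw [← hb] at h
    have h3 := res_unique hζ hvp (h2 v hvp hv2) h
    simp only [Nat.cast_mul, add_zero, ZMod.natCast_zmod_val] at h3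
    refine Multiplicative.toAdd.injective ?_
    rw [toAdd_pow, nsmul_eq_mul, mul_comm]
    exact h3
  rw [FA.Catalan.closure_degreeOneClasses hS] at hle
  exact hle (Subgroup.mem_top C)

variable [IsCyclotomicExtension {p} ℚ K]

/-- `x` has weight `k` up to `p`-th powers. -/
def IsEig (p : ℕ) [Fact p.Prime] (K : Type*) [Field K] [NumberField K]
    [IsCyclotomicExtension {p} ℚ K] (k : ℕ) (x : Kˣ) : Prop :=
  ∀ d : (ZMod p)ˣ, ∃ w : Kˣ, galU (sigmaK p K d) x = x ^ ((d : ZMod p) ^ k).val * w ^ p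

theorem IsEig.div_of_pow {k c : ℕ} {x y : Kˣ} (hx : IsEig p K k x) (hy : IsEig p K k y) :
    IsEig p K k (x / y ^ c) := fun d => by
  obtain ⟨w, hw⟩ := hx d
  obtain ⟨w', hw'⟩ := hy d
  refine ⟨w / w' ^ c, ?_⟩
  rw [map_div, map_pow, hw, hw', mul_pow, div_pow, div_pow, ← pow_mul, mul_comm _ c, pow_mul,
    pow_right_comm w' p c]
  exact mul_div_mul_comm _ _ _ _

/-- **A root of unity has weight one**: an element of weight `k ≠ 1` trivial modulo roots of unity
and `p`-th powers is a `p`-th power. -/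
theorem exists_eq_pow_of_quot_eq_one (hp2 : p ≠ 2) {k : ℕ} (hk : 2 ≤ k) (hkp : k + 2 ≤ p) {x : Kˣ}
    (hx : rootQuotMk p K x = 1) (heig : IsEig p K k x) : ∃ w : Kˣ, x = w ^ p := by
  haveI : NeZero p := ⟨hp.out.ne_zero⟩
  obtain ⟨_, ⟨t, ht, rfl⟩, _, ⟨y, rfl⟩, hty⟩ :=
    Subgroup.mem_sup.1 ((QuotientGroup.eq_one_iff _).1 hx)
  change intUnits t * y ^ p = x at hty
  obtain ⟨r, hr⟩ := FA.Ext.torsion_eq_neg_zeta_pow K p hp2 ht
  set z : Kˣ := Units.mk0 (zet p K) ((zet_spec p K).ne_zero hp.out.ne_zero)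
  set Z : Kˣ := (-1) ^ r * y with hZ
  have hbz : x = z ^ r * Z ^ p := by
    rw [← hty, hZ, show intUnits t = z ^ r * (-1) ^ r from Units.ext (by
      show algebraMap (𝓞 K) K (t : 𝓞 K) = _
      rw [hr, Units.val_mul, Units.val_pow_eq_pow_val, Units.val_pow_eq_pow_val, Units.val_neg,
        Units.val_one, ← mul_pow, mul_neg_one, map_pow, map_neg]
      rfl)]
    rw [mul_pow, ← pow_mul, mul_comm r p, pow_mul, (hp.out.odd_of_ne_two hp2).neg_one_pow,
      mul_assoc]
  refine ⟨z ^ (r / p) * Z, ?_⟩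
  rw [mul_pow, ← pow_mul, hbz]
  congr 2
  refine (Nat.div_mul_cancel ?_).symm
  obtain ⟨γ, hγ⟩ := IsCyclic.exists_generator (α := (ZMod p)ˣ)
  obtain ⟨w, hw⟩ := heig γ
  set c := ((γ : ZMod p) ^ k).val with hcdef
  set a := (γ : ZMod p).val with hadef
  have hσz : galU (sigmaK p K γ) z = z ^ a := Units.ext (by
    rw [galU_val, Units.val_pow_eq_pow_val]
    exact sigmaK_zet p K γ)
  rw [hbz, map_mul, map_pow, map_pow, hσz, ← pow_mul] at hw
  set u : Kˣ := Z ^ c * w / galU (sigmaK p K γ) Z with hu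
  have h1 : z ^ (a * r) = z ^ (r * c) * u ^ p := by
    rw [hu, div_pow, mul_div_assoc', eq_div_iff_mul_eq', hw]
    simp only [mul_pow, ← pow_mul, mul_comm p c]
    simp only [mul_comm, mul_assoc]
  have hzp : z ^ p = 1 := Units.ext (by
    rw [Units.val_pow_eq_pow_val]; exact (zet_spec p K).pow_eq_one)
  have hup : (u : K) ^ p = zet p K ^ (a * r + (p - 1) * (r * c)) := by
    have h2 : z ^ (a * r + (p - 1) * (r * c)) = u ^ p := by
      rw [pow_add, h1, mul_right_comm,
        show z ^ ((p - 1) * (r * c)) = (z ^ (r * c)) ^ (p - 1) by rw [← pow_mul, mul_comm],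
        ← pow_succ',
        Nat.sub_add_cancel hp.out.one_le, ← pow_mul, mul_comm (r * c) p, pow_mul, hzp, one_pow,
        one_mul]
    have h3 := congrArg Units.val h2
    rw [Units.val_pow_eq_pow_val, Units.val_pow_eq_pow_val] at h3
    exact h3.symm
  have hdvd := (ZMod.natCast_eq_zero_iff _ p).2 (dvd_of_zet_pow_eq_pow hp2 hup)
  simp only [Nat.cast_add, Nat.cast_mul, Nat.cast_sub hp.out.one_le, Nat.cast_one,
    ZMod.natCast_self, hcdef, hadef, ZMod.natCast_zmod_val, zero_sub] at hdvd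
  have h3 : (r : ZMod p) * ((γ : ZMod p) * (1 - (γ : ZMod p) ^ (k - 1))) = 0 := by
    rw [mul_sub, mul_one, ← pow_succ', Nat.sub_add_cancel (by omega)]
    linear_combination hdvd
  refine (ZMod.natCast_eq_zero_iff r p).1 ((mul_eq_zero.1 h3).resolve_right ?_)
  refine mul_ne_zero γ.ne_zero (sub_ne_zero.2 fun h => ?_)
  have h4 : γ ^ (k - 1) = 1 := Units.ext (by rw [Units.val_pow_eq_pow_val, Units.val_one, ← h])
  have h6 := Nat.le_of_dvd (by omega) (orderOf_dvd_of_pow_eq_one h4)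
  rw [orderOf_eq_card_of_forall_mem_zpowers hγ, Nat.card_eq_fintype_card, ZMod.card_units p] at h6
  omega

/-- **The radical of a character** (Kummer theory in the Hilbert class field). -/
theorem exists_radical {i k : ℕ} (hik : i + k = p)
    (φ : ClassGroup (𝓞 K) →* Multiplicative (ZMod p))
    (hφ : ∀ (d : (ZMod p)ˣ) (C : ClassGroup (𝓞 K)),
      φ (sigmaCl p K d C) = φ C ^ ((d : ZMod p) ^ i).val) :
    ∃ b : Kˣ, IsResChar p (zet p K) b φ ∧ IsEig p K k b ∧
      ∀ v : HeightOneSpectrum (𝓞 K), (p : ℤ) ∣ ord v b := by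
  haveI : NeZero p := ⟨hp.out.ne_zero⟩
  haveI : IsGalois ℚ K := IsCyclotomicExtension.isGalois {p} ℚ K
  obtain ⟨H, _, _, _, _, _, -, -, ⟨e, he⟩, hcl⟩ := exists_hilbertClassField (K := K)
  have hH : ∀ v : HeightOneSpectrum (𝓞 K), ¬ IsRam H v := fun v => hcl.unram v (sup_top_eq _)
  have hζ := zet_spec p K
  set ζ := zet p K
  have hζH := hζ.map_of_injective (algebraMap K H).injective
  set zH : Hˣ := Units.mk0 (algebraMap K H ζ) (hζH.ne_zero hp.out.ne_zero)
  have hzH : ∀ σ : H ≃ₐ[K] H, ∀ n : ℕ, σ • zH ^ n = zH ^ n := fun σ n => Units.ext (by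
    show σ ((zH ^ n : Hˣ) : H) = ((zH ^ n : Hˣ) : H)
    rw [Units.val_pow_eq_pow_val, Units.val_mk0, map_pow, AlgEquiv.commutes])
  obtain ⟨β, hβ⟩ := groupCohomology.isMulCoboundary₁_of_isMulCocycle₁_of_aut_to_units
    (fun σ => zH ^ (Multiplicative.toAdd (φ (e.symm σ))).val) (fun g h => by
      show zH ^ _ = g • zH ^ _ * zH ^ _
      rw [hzH, map_mul, map_mul, toAdd_mul, add_comm]
      refine Units.ext ?_
      rw [Units.val_mul, Units.val_pow_eq_pow_val, Units.val_pow_eq_pow_val,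
        Units.val_pow_eq_pow_val, Units.val_mk0]
      exact FA.Kolyvagin.zeta_pow_add hζH _ _)
  have hσβ : ∀ σ : H ≃ₐ[K] H, σ (β : H) =
      algebraMap K H ζ ^ (Multiplicative.toAdd (φ (e.symm σ))).val * β := fun σ => by
    have := congrArg Units.val (div_eq_iff_eq_mul.1 (hβ σ))
    rwa [Units.val_mul, Units.val_pow_eq_pow_val] at this
  obtain ⟨b₀, hb₀⟩ := (IsGalois.mem_range_algebraMap_iff_fixed (F := K) ((β : H) ^ p)).mpr
    fun σ => by rw [map_pow, hσβ, mul_pow, pow_right_comm, hζH.pow_eq_one, one_pow, one_mul]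
  have hb₀0 : b₀ ≠ 0 := fun h => pow_ne_zero p β.ne_zero (by rw [← hb₀, h, map_zero])
  set b : Kˣ := Units.mk0 b₀ hb₀0
  have hres : IsResChar p ζ b φ := fun v hv hvb => by
    obtain ⟨Q, hQ, hτ⟩ := artinAt_spec (L := H) v
    refine res_of_frob hζ hv hQ hτ hvb (w := (β : H)) hb₀.symm ?_
    rw [hσβ, map_pow, show e.symm (artinAt H v) = primeCls v from
      e.symm_apply_eq.2 (he v).symm]
  refine ⟨b, hres, fun d => ?_, fun v => ?_⟩
  · set σ := sigmaK p K d
    set c := ((d : ZMod p) ^ k).val with hcdef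
    obtain ⟨w, hw⟩ := exists_eq_pow_of_res_zero hζ (galU σ b / b ^ c)
      (((finite_natCast_mem (p := p)).union (finite_ord_ne_zero b)).union
        ((finite_ord_ne_zero b).preimage (galPrime_injective σ⁻¹).injOn)) fun u hu => by
      simp only [Set.mem_union, Set.mem_ofPred_eq, Set.mem_preimage, not_or, not_not] at hu
      obtain ⟨⟨hup, hu0⟩, hv0⟩ := hu
      set v := galPrime σ⁻¹ u
      have hσv : galPrime σ v = u := by rw [← galPrime_mul, mul_inv_cancel, galPrime_one]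
      have hvp : (p : 𝓞 K) ∉ v.asIdeal := fun h => hup ((natCast_mem_galPrime_iff _ u p).1 h)
      have h1 := res_galPrime σ (sigmaK_zet p K d) (hres v hvp hv0)
      rw [hσv] at h1
      refine res_div hζ h1 (res_pow hζ (hres u hup hu0) c) ?_
      have hu' : primeCls u = sigmaCl p K d (primeCls v) := by
        rw [← galCl_sigmaK, galCl_primeCls, hσv]
      rw [hu', hφ, toAdd_pow, nsmul_eq_mul]
      simp only [hcdef, Nat.cast_mul, ZMod.natCast_zmod_val]
      rw [mul_comm ((d : ZMod p) ^ i), mul_assoc, ← pow_add, hik, ZMod.pow_card, mul_comm]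
    exact ⟨w, by rw [← hw, mul_div_cancel]⟩
  · obtain ⟨Q, hQ⟩ := exists_belowP K H v
    refine ⟨ord Q β, ?_⟩
    have h1 := ord_baseU Q b
    rw [eIdx_eq_one (hH _), Nat.cast_one, one_mul, hQ,
      show baseU (L := H) b = β ^ p from Units.ext (by
        rw [Units.val_pow_eq_pow_val, ← hb₀]; rfl), ord_pow] at h1
    exact h1.symm

/-- **The units of weight `k`**: if `p ∤ h⁺` they are the powers of the projection of `1 - ζ`. -/
theorem wproj_unit_mem_zpowers (hp5 : 5 ≤ p) (hplus : ¬ p ∣ classNumber (maximalRealSubfield K))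
    (k : ℕ) (u : (𝓞 K)ˣ) :
    wproj p K k (intUnits u) ∈ Subgroup.zpowers (wproj p K k (lamU p K)) := by
  set L := wproj p K k (lamU p K) with hL
  set S := (Subgroup.zpowers L).comap ((wproj p K k).comp intUnits) with hS
  have hpow : (powMonoidHom p : (𝓞 K)ˣ →* (𝓞 K)ˣ).range ≤ S := by
    rintro _ ⟨w, rfl⟩
    rw [hS, Subgroup.mem_comap, MonoidHom.comp_apply, powMonoidHom_apply, map_pow, map_pow,
      rootPow_quot_pow]
    exact one_mem _
  have hcyc : FA.Regular.cycloUnits p K ≤ S := sup_le (fun t ht => by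
      rw [hS, Subgroup.mem_comap, MonoidHom.comp_apply, wproj_intUnits,
        quot_eq_one_of_rootTimesPow
          (Subgroup.mem_sup_left (FA.Regular.unitProj_mem_torsion p K k ht))]
      exact one_mem _) <| (Subgroup.closure_le _).2 <| by
    rintro _ ⟨⟨a, ha⟩, rfl⟩
    show wproj p K k (intUnits (FA.Regular.cycU p K ha)) ∈ Subgroup.zpowers L
    have h1 := congrArg (wproj p K k) (cycU_mul_lamU (K := K) ha)
    rw [wproj_galU, map_mul, ← hL] at h1
    rw [eq_div_of_mul_eq' h1.symm]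
    exact div_mem (pow_mem (Subgroup.mem_zpowers L) _) (Subgroup.mem_zpowers L)
  have h := FA.Regular.mem_of_pow_mem p hpow hplus (x := u)
    (by rw [← FA.Summary.kummer_index p K hp5]; exact hcyc (Subgroup.pow_index_mem _ u))
  exact h

/-- A weight `k` element is its own projection, up to inversion. -/
theorem wproj_of_isEig {k : ℕ} {x : Kˣ} (hx : IsEig p K k x) :
    wproj p K k x = (rootQuotMk p K x) ^ (p - 1) := by
  haveI : NeZero p := ⟨hp.out.ne_zero⟩
  rw [wproj_apply, Finset.prod_congr rfl fun d _ => ?_, Finset.prod_const, Finset.card_univ,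
    ZMod.card_units p]
  obtain ⟨w, hw⟩ := hx d⁻¹
  rw [hw, map_mul, map_pow, map_pow, rootPow_quot_pow, mul_one, ← pow_mul]
  refine (rootPow_pow_congr _ (?_ : _ = ((1 : ℕ) : ZMod p))).trans (pow_one _)
  rw [Nat.cast_mul, ZMod.natCast_zmod_val, ZMod.natCast_zmod_val, ← mul_pow, Units.inv_mul,
    one_pow, Nat.cast_one]

end radical

variable {K : Type} [Field K] [NumberField K] [IsCyclotomicExtension {p} ℚ K]

/-- A class of order `p` and even weight is trivial. -/
theorem eq_one_of_even_eigen (hp2 : p ≠ 2) (hplus : ¬ p ∣ classNumber (maximalRealSubfield K))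
    {k : ℕ} (hev : Even k) {x : ClassGroup (𝓞 K)} (hx : x ^ p = 1)
    (heig : ∀ d : (ZMod p)ˣ, sigmaCl p K d x = x ^ ((d : ZMod p) ^ k).val) : x = 1 := by
  haveI : NeZero p := ⟨hp.out.ne_zero⟩
  haveI : IsCMField K := IsCyclotomicExtension.Rat.isCMField K (S := {p}) ⟨p, rfl, by
    have := hp.out.two_le; omega⟩
  have h1 := FA.IwasawaStructure.conj_acts_inv hp.out hplus (y := x) (i := 1)
    (by rw [pow_one, hx])
  have h2 : sigmaCl p K (-1) x = x⁻¹ := by
    rw [show ((complexConj K).restrictScalars ℚ : K ≃ₐ[ℚ] K) = sigmaK p K (-1) from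
      AlgEquiv.ext fun y => (FA.Regular.sigmaK_neg_one_eq p K y).symm,
      ← FA.IwasawaStructure.classAut_eq_actCl] at h1
    exact h1
  rw [heig, Units.val_neg, Units.val_one, hev.neg_one_pow, ZMod.val_one, pow_one] at h2
  have h3 : x ^ 2 = 1 := by
    rw [pow_two]
    nth_rewrite 2 [h2]
    exact mul_inv_cancel x
  exact (pow_eq_one_iff_of_coprime ((Nat.coprime_primes hp.out Nat.prime_two).2 hp2)).1 ⟨hx, h3⟩

/-- **The radical modulo roots of unity and powers** is a power of the projection of `1 - ζ`. -/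
theorem rootQuot_radical_mem (hp5 : 5 ≤ p) (hplus : ¬ p ∣ classNumber (maximalRealSubfield K))
    {k : ℕ} (hev : Even k) {b : Kˣ} (hb : IsEig p K k b)
    (hord : ∀ v : HeightOneSpectrum (𝓞 K), (p : ℤ) ∣ ord v b) :
    rootQuotMk p K b ∈ Subgroup.zpowers (wproj p K k (lamU p K)) := by
  haveI : IsGalois ℚ K := IsCyclotomicExtension.isGalois {p} ℚ K
  obtain ⟨D, hD⟩ := exists_dvs_pow_eq hord
  have hcls : cls D = 1 := by
    refine eq_one_of_even_eigen (by omega) hplus hev
      (by rw [← map_pow, hD, ← MonoidHom.mem_ker, ker_cls]; exact ⟨b, rfl⟩) fun d => ?_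
    obtain ⟨w, hw⟩ := hb d
    set c := ((d : ZMod p) ^ k).val
    have h2 : galDiv (sigmaK p K d) D = D ^ c * ordHom w := dvs_pow_inj hp.out.ne_zero (by
      rw [← map_pow, hD, ← galDiv_ordHom, hw, mul_pow, map_mul, map_pow, map_pow, ← pow_mul,
        mul_comm c p, pow_mul, hD])
    rw [← galCl_sigmaK, ← cls_galDiv, h2, map_mul, map_pow,
      show cls (ordHom w) = 1 by rw [← MonoidHom.mem_ker, ker_cls]; exact ⟨w, rfl⟩, mul_one]
  obtain ⟨y, hy⟩ : D ∈ (ordHom (F := K)).range := by rw [← ker_cls]; exact hcls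
  obtain ⟨U, hU⟩ := exists_intUnits_eq (x := b / y ^ p) fun v => by
    rw [← toAdd_ordHom, map_div, map_pow, hy, hD, div_self', toAdd_one, Finsupp.zero_apply]
  have h1 : wproj p K k b = wproj p K k (intUnits U) := by
    rw [hU, map_div, map_pow, rootPow_quot_pow, div_one]
  rw [wproj_of_isEig hb] at h1
  have h2 : (rootQuotMk p K b) = ((rootQuotMk p K b) ^ (p - 1))⁻¹ :=
    eq_inv_of_mul_eq_one_left (by
      rw [← pow_succ', Nat.sub_add_cancel hp.out.one_le, rootPow_quot_pow])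
  rw [h2, h1]
  exact inv_mem (wproj_unit_mem_zpowers hp5 hplus k U)

/-- **Reflection**: two characters of the same odd weight are proportional if `p ∤ h⁺`. -/
theorem exists_char_eq_pow (hp5 : 5 ≤ p) (hplus : ¬ p ∣ classNumber (maximalRealSubfield K))
    {i : ℕ} (hi : Odd i) (hi3 : 3 ≤ i) (hip : i + 2 ≤ p)
    {φ₁ φ₂ : ClassGroup (𝓞 K) →* Multiplicative (ZMod p)}
    (h₁ : ∀ (d : (ZMod p)ˣ) C, φ₁ (sigmaCl p K d C) = φ₁ C ^ ((d : ZMod p) ^ i).val)
    (h₂ : ∀ (d : (ZMod p)ˣ) C, φ₂ (sigmaCl p K d C) = φ₂ C ^ ((d : ZMod p) ^ i).val)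
    (hne : φ₁ ≠ 1) : ∃ c : ℕ, ∀ C, φ₂ C = φ₁ C ^ c := by
  haveI : NeZero p := ⟨hp.out.ne_zero⟩
  obtain ⟨k, hik⟩ : ∃ k, i + k = p := ⟨p - i, by omega⟩
  have hev : Even k :=
    (Nat.even_or_odd k).resolve_right fun ho => Nat.not_even_iff_odd.2
      (hp.out.odd_of_ne_two (by omega)) (hik ▸ hi.add_odd ho)
  obtain ⟨b₁, hr₁, he₁, ho₁⟩ := exists_radical hik φ₁ h₁
  obtain ⟨b₂, hr₂, he₂, ho₂⟩ := exists_radical hik φ₂ h₂
  have hp2 : p ≠ 2 := by omega
  obtain ⟨a₁, ha₁⟩ := Subgroup.mem_zpowers_iff.1 (rootQuot_radical_mem hp5 hplus hev he₁ ho₁)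
  obtain ⟨a₂, ha₂⟩ := Subgroup.mem_zpowers_iff.1 (rootQuot_radical_mem hp5 hplus hev he₂ ho₂)
  set L := wproj p K k (lamU p K)
  have hLp : L ^ (p : ℤ) = 1 := by rw [zpow_natCast, rootPow_quot_pow]
  have hnat : ∀ a : ℤ, L ^ ((a : ZMod p).val) = L ^ a := fun a => by
    rw [← zpow_natCast, ZMod.val_intCast]
    conv_rhs => rw [← Int.emod_add_mul_ediv a p, zpow_add, zpow_mul, hLp, one_zpow, mul_one]
  have hne₁ : (a₁ : ZMod p) ≠ 0 := fun h0 => by
    obtain ⟨w, hw⟩ := exists_eq_pow_of_quot_eq_one hp2 (k := k) (by omega) (by omega)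
      (x := b₁) (by rw [← ha₁, ← hnat, h0, ZMod.val_zero, pow_zero]) he₁
    refine hne (MonoidHom.ext fun C => ?_)
    rw [map_eq_pow_of_radical (zet_spec p K) hr₁ hr₁ (w := w) (c := 0)
      (by rw [pow_zero, one_mul, hw]) C, pow_zero, MonoidHom.one_apply]
  set c := ((a₂ : ZMod p) * (a₁ : ZMod p)⁻¹).val with hc
  have hquot : rootQuotMk p K (b₂ / b₁ ^ c) = 1 := by
    rw [map_div, map_pow, ← ha₁, ← ha₂, ← hnat, ← hnat, ← pow_mul, div_eq_one]
    refine rootPow_pow_congr _ ?_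
    rw [Nat.cast_mul, hc, ZMod.natCast_zmod_val, ZMod.natCast_zmod_val, ZMod.natCast_zmod_val,
      mul_left_comm, mul_inv_cancel₀ hne₁, mul_one]
  obtain ⟨w, hw⟩ := exists_eq_pow_of_quot_eq_one hp2 (k := k) (by omega) (by omega) hquot
    (he₂.div_of_pow he₁)
  exact ⟨c, fun C => map_eq_pow_of_radical (zet_spec p K) hr₁ hr₂
    (by rw [← hw, mul_div_cancel]) C⟩

/-- The exponent of `σ_d`. -/
theorem expo_sigmaK (d : (ZMod p)ˣ) : expo p (sigmaK p K d) = (d : ZMod p).val := by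
  show (((IsCyclotomicExtension.Rat.galEquivZMod p K)
    ((IsCyclotomicExtension.Rat.galEquivZMod p K).symm d) : (ZMod p)ˣ) : ZMod p).val = _
  rw [MulEquiv.apply_symm_apply]

/-- **The odd parts are cyclic.** -/
theorem isCyclic_wPart_base (hp5 : 5 ≤ p) (hplus : ¬ p ∣ classNumber (maximalRealSubfield K))
    {i : ℕ} (hi : Odd i) (hi3 : 3 ≤ i) (hip : i + 2 ≤ p) : IsCyclic (wPart p p K i) := by
  haveI : NeZero p := ⟨hp.out.ne_zero⟩
  refine isCyclic_of_char (p := p) (N := pLvl p K) (fun x => Subtype.ext x.2.1) fun f g hf => ?_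
  set P : ClassGroup (𝓞 K) →* wPart p p K i :=
    (wProj p p K i).codRestrict _ fun x => wProj_mem dvd_rfl i x
  have hP : ∀ x : wPart p p K i, P x = x := fun x =>
    Subtype.ext (wProj_of_mem dvd_rfl x.2)
  have hw : ∀ h : wPart p p K i →* Multiplicative (ZMod p), ∀ (d : (ZMod p)ˣ) C,
      (h.comp P) (sigmaCl p K d C) = (h.comp P) C ^ ((d : ZMod p) ^ i).val := fun h d C => by
    have hd : sigmaK p K d ^ (p - 1) = 1 := by
      rw [← map_pow, ← ZMod.card_units p, pow_card_eq_one, map_one]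
    have hact : ∀ x, actCl (sigmaK p K d) x = sigmaCl p K d x := fun x => by
      rw [← FA.IwasawaStructure.classAut_eq_actCl]
      rfl
    have h1 : P (sigmaCl p K d C) = P C ^ (d : ZMod p).val ^ (i * p ^ pLvl p K) := by
      refine Subtype.ext ?_
      rw [SubgroupClass.coe_pow, ← hact]
      show wProj p p K i (actCl _ C) = _
      rw [wProj_actCl, (wProj_mem dvd_rfl i C).2 _ hd, expo_sigmaK]
      rfl
    rw [MonoidHom.comp_apply, MonoidHom.comp_apply, h1, map_pow]
    refine Multiplicative.toAdd.injective ?_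
    rw [toAdd_pow, toAdd_pow, nsmul_eq_mul, nsmul_eq_mul, Nat.cast_pow, ZMod.natCast_zmod_val,
      ZMod.natCast_zmod_val, pow_mul, ZMod.pow_card_pow]
  obtain ⟨c, hc⟩ := exists_char_eq_pow hp5 hplus hi hi3 hip (hw f) (hw g) fun h1 =>
    hf (MonoidHom.ext fun x => by
      have := DFunLike.congr_fun h1 (x : ClassGroup (𝓞 K))
      rwa [MonoidHom.comp_apply, hP] at this)
  refine ⟨c, fun x => ?_⟩
  have := hc (x : ClassGroup (𝓞 K))
  rwa [MonoidHom.comp_apply, MonoidHom.comp_apply, hP] at this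

end FA.VandiverStructure
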