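import Fermat.Agent.VandiverStructure.Reflection
import Fermat.Agent.IwasawaControl.Cyclic

/-!
# The weights of the `p`-classes of `ℚ(ζ_(p^(n+1)))`

* `prod_wProj`: every class of `p`-power order is the product of its `p - 1` projections, and
  distinct weights meet trivially;
* `wPart_one_eq_bot`: the weight `ω` is trivial at every level;
* `exists_decomp`: if `p ∤ h(ℚ(ζ_(p^(n+1)))⁺)` only the odd `i ≥ 3` remain and the classes of
  `p`-power order are uniquely products over these.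

Classical.
-/

set_option autoImplicit false
set_option linter.unusedSectionVars false
set_option linter.style.haveILetI false

noncomputable section

open NumberField NumberField.IsCMField FA.IwasawaControl
open scoped Classical
open FA.CycloTower (actCl)
open FA.IwasawaStructure (expo coprime_expo)
open FA.HerbrandRibet (natCast_pow_congr)

namespace FA.VandiverStructure

variable {p : ℕ} [hp : Fact p.Prime]

/-- The classes of `p`-power order. -/
def pPart (p : ℕ) [Fact p.Prime] (L : Type) [Field L] [NumberField L] :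
    Subgroup (ClassGroup (𝓞 L)) :=
  (powMonoidHom (p ^ pLvl p L) : ClassGroup (𝓞 L) →* ClassGroup (𝓞 L)).ker

theorem mem_pPart {L : Type} [Field L] [NumberField L] {x : ClassGroup (𝓞 L)} :
    x ∈ pPart p L ↔ ∃ j, x ^ p ^ j = 1 :=
  ⟨fun h => ⟨_, MonoidHom.mem_ker.1 h⟩, fun ⟨_, h⟩ => MonoidHom.mem_ker.2 (pow_pLvl h)⟩

/-- The odd indices `3 ≤ i ≤ p - 2`. -/
def oddIdx (p : ℕ) : Finset ℕ := ((Finset.range (p - 1)).filter Odd).erase 1

theorem mem_oddIdx {i : ℕ} (hp2 : p ≠ 2) : i ∈ oddIdx p ↔ Odd i ∧ 3 ≤ i ∧ i + 2 ≤ p := by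
  have hpodd := Nat.odd_iff.1 (hp.out.odd_of_ne_two hp2)
  simp only [oddIdx, Finset.mem_erase, Finset.mem_filter, Finset.mem_range]
  refine ⟨fun h => ⟨h.2.2, ?_⟩, fun h => ⟨by omega, ?_, h.1⟩⟩
  · have := Nat.odd_iff.1 h.2.2
    omega
  · have := Nat.odd_iff.1 h.1
    omega

variable {n : ℕ} {L : Type} [Field L] [NumberField L] [IsCyclotomicExtension {p ^ (n + 1)} ℚ L]

/-- The weight parts consist of `p`-classes. -/
theorem wPart_le_pPart (i : ℕ) : wPart p (p ^ (n + 1)) L i ≤ pPart p L :=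
  fun _ hx => MonoidHom.mem_ker.2 hx.1

/-- Only the identity of order prime to `p` has exponent `1` modulo `p`. -/
theorem eq_one_of_expo_eq_one {σ : L ≃ₐ[ℚ] L} (hσ : σ ^ (p - 1) = 1)
    (h1 : ((expo (p ^ (n + 1)) σ : ℕ) : ZMod p) = 1) : σ = 1 := by
  set e := IsCyclotomicExtension.Rat.galEquivZMod (p ^ (n + 1)) L
  refine e.injective ((map_one e).symm ▸ ?_)
  refine (pow_eq_one_iff_of_coprime (Nat.Coprime.pow_right n
    ((hp.out.coprime_iff_not_dvd.2 fun h => ?_).symm) : Nat.Coprime (p - 1) (p ^ n))).1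
    ⟨by rw [← map_pow, hσ, map_one], Units.ext ?_⟩
  · have := Nat.le_of_dvd (Nat.sub_pos_of_lt hp.out.one_lt) h
    have := hp.out.two_le
    omega
  · have h := natCast_pow_congr (p := p) (m := n + 1) n.succ_pos (a := expo (p ^ (n + 1)) σ)
      (b := 1) (by rw [h1, Nat.cast_one])
    rw [expo, ZMod.natCast_zmod_val, Nat.cast_one, one_pow, Nat.add_sub_cancel] at h
    rw [Units.val_pow_eq_pow_val, Units.val_one]
    exact h

variable (n L) in
/-- Every residue is that of an automorphism of order prime to `p`. -/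
theorem exists_tame_expo (d : (ZMod p)ˣ) :
    ∃ σ : L ≃ₐ[ℚ] L, σ ^ (p - 1) = 1 ∧ ((expo (p ^ (n + 1)) σ : ℕ) : ZMod p) = d := by
  set e := IsCyclotomicExtension.Rat.galEquivZMod (p ^ (n + 1)) L
  have hg : Nat.Coprime (d : ZMod p).val (p ^ (n + 1)) :=
    (ZMod.val_coe_unit_coprime d).pow_right _
  set U := ZMod.unitOfCoprime _ hg
  refine ⟨e.symm (U ^ p ^ n), ?_, ?_⟩
  · rw [← map_pow, ← pow_mul, ← Nat.totient_prime_pow_succ hp.out n, ZMod.pow_totient, map_one]
  · rw [expo, MulEquiv.apply_symm_apply, Units.val_pow_eq_pow_val, ZMod.coe_unitOfCoprime,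
      ZMod.natCast_val, ← Nat.cast_pow, ZMod.cast_natCast (dvd_level (n := n)), Nat.cast_pow,
      ZMod.natCast_zmod_val, ZMod.pow_card_pow]

/-- **Distinct weights meet trivially.** -/
theorem eq_one_of_mem_of_mem {i j : ℕ} (hi : i < p - 1) (hj : j < p - 1) (hij : i ≠ j)
    {x : ClassGroup (𝓞 L)} (hxi : x ∈ wPart p (p ^ (n + 1)) L i)
    (hxj : x ∈ wPart p (p ^ (n + 1)) L j) : x = 1 := by
  obtain ⟨γ, hγ⟩ := IsCyclic.exists_generator (α := (ZMod p)ˣ)
  obtain ⟨σ, hσ, he⟩ := exists_tame_expo n L γ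
  by_contra hne
  have h := (hxi.2 σ hσ).symm.trans (hxj.2 σ hσ)
  rw [pow_eq_pow_iff_modEq] at h
  obtain ⟨a, -, ha⟩ := (Nat.dvd_prime_pow hp.out).1 (orderOf_dvd_of_pow_eq_one hxi.1)
  have ha0 : a ≠ 0 := fun h0 => hne (orderOf_eq_one_iff.1 (by rw [ha, h0, pow_zero]))
  have h2 := h.of_dvd (ha ▸ dvd_pow_self p ha0)
  rw [← ZMod.natCast_eq_natCast_iff, Nat.cast_pow, Nat.cast_pow, he, pow_mul, pow_mul,
    ZMod.pow_card_pow, ZMod.pow_card_pow, ← Units.val_pow_eq_pow_val,
    ← Units.val_pow_eq_pow_val, Units.val_inj, pow_eq_pow_iff_modEq,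
    orderOf_eq_card_of_forall_mem_zpowers hγ, Nat.card_eq_fintype_card, ZMod.card_units p] at h2
  exact hij (by
    rw [Nat.ModEq, Nat.mod_eq_of_lt hi, Nat.mod_eq_of_lt hj] at h2
    exact h2)

/-- A projection of a weight part stays in it. -/
theorem wProj_mem_of_mem {i : ℕ} (j : ℕ) {x : ClassGroup (𝓞 L)}
    (hx : x ∈ wPart p (p ^ (n + 1)) L i) :
    wProj p (p ^ (n + 1)) L j x ∈ wPart p (p ^ (n + 1)) L i :=
  Subgroup.prod_mem _ fun σ _ => pow_mem (actCl_mem_wPart σ hx) _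

/-- The projection on another weight kills a weight part. -/
theorem wProj_eq_one_of_mem {i j : ℕ} (hi : i < p - 1) (hj : j < p - 1) (hij : i ≠ j)
    {x : ClassGroup (𝓞 L)} (hx : x ∈ wPart p (p ^ (n + 1)) L i) :
    wProj p (p ^ (n + 1)) L j x = 1 :=
  eq_one_of_mem_of_mem hi hj hij (wProj_mem_of_mem j hx) (wProj_mem dvd_level j x)

/-- The projection of a product over distinct weights. -/
theorem wProj_prod {s : Finset ℕ} (hs : ∀ i ∈ s, i < p - 1) {x : ℕ → ClassGroup (𝓞 L)}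
    (hx : ∀ i ∈ s, x i ∈ wPart p (p ^ (n + 1)) L i) {j : ℕ} (hj : j ∈ s) :
    wProj p (p ^ (n + 1)) L j (∏ i ∈ s, x i) = x j := by
  rw [map_prod, Finset.prod_eq_single j (fun i hi hij =>
    wProj_eq_one_of_mem (hs i hi) (hs j hj) hij (hx i hi)) fun h => absurd hj h,
    wProj_of_mem dvd_level (hx j hj)]

/-- **The decomposition by weights.** -/
theorem prod_wProj {x : ClassGroup (𝓞 L)} (hx : x ∈ pPart p L) :
    ∏ i ∈ Finset.range (p - 1), wProj p (p ^ (n + 1)) L i x = x := by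
  set N := pLvl p L
  set M := p ^ (N + 1)
  haveI : NeZero M := ⟨pow_ne_zero _ hp.out.ne_zero⟩
  set c := (exists_pExp p L).choose
  set s := ((((tame p L).card : ℕ) : ZMod M)⁻¹).val with hs
  set m := p ^ (n + 1)
  set r := ∑ i ∈ Finset.range (p - 1), c * s * expo m (1 : L ≃ₐ[ℚ] L) ^ (i * p ^ N) with hr
  have hP : ∀ y ∈ pPart p L, ∏ i ∈ Finset.range (p - 1), wProj p m L i y = y ^ r := by
    intro y hy
    have hy' : y ^ p ^ (N + 1) = 1 := by
      rw [pow_succ, pow_mul, show y ^ p ^ N = 1 from MonoidHom.mem_ker.1 hy, one_pow]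
    simp only [wProj, MonoidHom.coe_mk, OneHom.coe_mk]
    rw [Finset.prod_comm, Finset.prod_eq_single (1 : L ≃ₐ[ℚ] L) (fun σ hσ hσ1 => ?_)
      fun h => absurd (mem_tame.2 (one_pow _)) h]
    · rw [Finset.prod_pow_eq_pow_sum, map_one, inv_one]
      rfl
    · rw [Finset.prod_pow_eq_pow_sum, ← Finset.mul_sum]
      have he : ((expo m σ⁻¹ : ℕ) : ZMod p) ≠ 1 := fun h => hσ1 (inv_eq_one.1
        (eq_one_of_expo_eq_one (by rw [inv_pow, mem_tame.1 hσ, inv_one]) h))
      set e := expo m σ⁻¹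
      have hep : ¬ p ∣ e := not_dvd_expo dvd_level _
      have he1 : 1 ≤ e ^ p ^ N := Nat.one_le_pow _ _ (Nat.pos_of_ne_zero fun h0 =>
        hep (h0 ▸ dvd_zero p))
      have hu : IsUnit (((e ^ p ^ N - 1 : ℕ) : ZMod M)) := by
        rw [ZMod.isUnit_iff_coprime]
        refine ((hp.out.coprime_iff_not_dvd.2 fun h => he ?_).symm).pow_right _
        rw [← ZMod.natCast_eq_zero_iff, Nat.cast_sub he1, Nat.cast_pow, ZMod.pow_card_pow,
          Nat.cast_one, sub_eq_zero] at h
        exact h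
      have ht : ((e : ZMod M) ^ p ^ N) ^ (p - 1) = 1 := by
        rw [← pow_mul, ← Nat.totient_prime_pow_succ hp.out N, ← Nat.cast_pow]
        exact ((ZMod.natCast_eq_natCast_iff _ 1 M).2 (Nat.ModEq.pow_totient
          ((hp.out.coprime_iff_not_dvd.2 hep).symm.pow_right _))).trans Nat.cast_one
      have hsum : ((∑ i ∈ Finset.range (p - 1), e ^ (i * p ^ N) : ℕ) : ZMod M) = 0 := by
        have hg := geom_sum_mul ((e : ZMod M) ^ p ^ N) (p - 1)
        rw [ht, sub_self, show (e : ZMod M) ^ p ^ N - 1 = ((e ^ p ^ N - 1 : ℕ) : ZMod M) by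
          rw [Nat.cast_sub he1, Nat.cast_pow, Nat.cast_one]] at hg
        rw [Nat.cast_sum, ← hu.mul_left_eq_zero, ← hg]
        congr 1
        exact Finset.sum_congr rfl fun i _ => by rw [Nat.cast_pow, mul_comm i, pow_mul]
      obtain ⟨q, hq⟩ := (ZMod.natCast_eq_zero_iff _ _).1 hsum
      rw [hq, mul_left_comm, pow_mul, ← map_pow, hy', map_one, one_pow]
  have hmemP : ∀ y, ∏ i ∈ Finset.range (p - 1), wProj p m L i y ∈ pPart p L := fun y =>
    Subgroup.prod_mem _ fun i _ => wPart_le_pPart i (wProj_mem dvd_level i y)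
  have hidem : ∀ j ∈ Finset.range (p - 1),
      wProj p m L j (∏ i ∈ Finset.range (p - 1), wProj p m L i x) = wProj p m L j x :=
    fun j hj => wProj_prod (fun i hi => Finset.mem_range.1 hi)
      (fun i _ => wProj_mem dvd_level i x) hj
  have hfix : (x ^ r) ^ r = x ^ r := by
    rw [← hP x hx, ← hP _ (hmemP x)]
    exact Finset.prod_congr rfl hidem
  have hr0 : ¬ p ∣ r := by
    obtain ⟨hc, -⟩ := (exists_pExp p L).choose_spec
    have h1 : ((expo m (1 : L ≃ₐ[ℚ] L) : ℕ) : ZMod p) = 1 := expo_one_cast dvd_level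
    rw [← ZMod.natCast_eq_zero_iff, hr, Nat.cast_sum]
    simp only [Nat.cast_mul, Nat.cast_pow, h1, one_pow, mul_one,
      Finset.sum_const, Finset.card_range, nsmul_eq_mul]
    refine mul_ne_zero (fun h => ?_) (mul_ne_zero ?_ fun h => ?_)
    · rw [ZMod.natCast_eq_zero_iff] at h
      have := Nat.le_of_dvd (Nat.sub_pos_of_lt hp.out.one_lt) h
      have := hp.out.two_le
      omega
    · rw [(ZMod.natCast_eq_natCast_iff c 1 p).2
        (hc.of_dvd (dvd_pow_self p (Nat.succ_ne_zero _))), Nat.cast_one]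
      exact one_ne_zero
    · have h1 : ((tame p L).card : ZMod M) * (s : ZMod M) = 1 := by
        rw [hs, ZMod.natCast_zmod_val, ZMod.coe_mul_inv_eq_one]
        exact ((hp.out.coprime_iff_not_dvd.2 (not_dvd_card_tame m)).pow_left _).symm
      have h2 := congrArg (ZMod.castHom (dvd_pow_self p (Nat.succ_ne_zero N)) (ZMod p)) h1
      rw [map_mul, map_natCast, map_natCast, h, mul_zero, map_one] at h2
      exact zero_ne_one h2
  rw [hP x hx, ← div_eq_one]
  refine (pow_eq_one_iff_of_coprime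
    ((hp.out.coprime_iff_not_dvd.2 hr0).pow_left N)).1 ⟨?_, ?_⟩
  · exact MonoidHom.mem_ker.1 ((pPart p L).div_mem (pow_mem hx r) hx)
  · rw [div_pow, hfix, div_self']

/-- An even weight part is trivial if `p ∤ h⁺`. -/
theorem eq_one_of_even (hp5 : 5 ≤ p) [IsCMField L]
    (hplus : ¬ p ∣ classNumber (maximalRealSubfield L)) {i : ℕ} (hev : Even i)
    {x : ClassGroup (𝓞 L)} (hx : x ∈ wPart p (p ^ (n + 1)) L i) : x = 1 := by
  set cσ : L ≃ₐ[ℚ] L := (complexConj L).restrictScalars ℚ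
  have hcc : cσ * cσ = 1 := AlgEquiv.ext fun y => complexConj_apply_apply L y
  have hct : cσ ^ (p - 1) = 1 := by
    obtain ⟨d, hd⟩ : 2 ∣ p - 1 :=
      ((hp.out.odd_of_ne_two (by omega)).tsub_odd odd_one).two_dvd
    rw [hd, pow_mul, pow_two, hcc, one_pow]
  have hsq : ((expo (p ^ (n + 1)) cσ ^ 2 : ℕ) : ZMod p) = ((1 : ℕ) : ZMod p) := by
    rw [Nat.cast_pow, pow_two, ← expo_mul_cast dvd_level, hcc, expo_one_cast dvd_level,
      Nat.cast_one]
  have h1 := FA.IwasawaStructure.conj_acts_inv hp.out hplus hx.1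
  obtain ⟨i', rfl⟩ := hev
  rw [hx.2 cσ hct, show (i' + i') * p ^ pLvl p L = 2 * (i' * p ^ pLvl p L) by ring, pow_mul,
    pow_pow_congr hx.1 hsq i' (Nat.le_succ _) (Nat.le_succ _), one_pow, pow_one] at h1
  refine (pow_eq_one_iff_of_coprime (((Nat.coprime_primes hp.out Nat.prime_two).2
    (by omega)).pow_left (pLvl p L))).1 ⟨hx.1, ?_⟩
  rw [pow_two]
  nth_rewrite 2 [h1]
  exact mul_inv_cancel x

/-- **The weight `ω` is trivial at every level.** -/
theorem eq_one_of_weight_one (hp5 : 5 ≤ p) {x : ClassGroup (𝓞 L)}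
    (hx : x ∈ wPart p (p ^ (n + 1)) L 1) : x = 1 := by
  haveI : NeZero (p ^ (n + 1)) := ⟨pow_ne_zero _ hp.out.ne_zero⟩
  have hη : IsPrimitiveRoot (IsCyclotomicExtension.zeta (p ^ (n + 1)) ℚ L ^ p ^ n) p :=
    (IsCyclotomicExtension.zeta_spec (p ^ (n + 1)) ℚ L).pow (Nat.pos_of_neZero _) (pow_succ _ _)
  set η := IsCyclotomicExtension.zeta (p ^ (n + 1)) ℚ L ^ p ^ n
  let K := IntermediateField.adjoin ℚ {η}
  haveI : IsCyclotomicExtension {p} ℚ K :=
    hη.intermediateField_adjoin_isCyclotomicExtension ℚ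
  have hbase : ∀ y ∈ wPart p p K 1, y = 1 := fun y hy => by
    obtain ⟨hy1, hy2⟩ := (mem_wPart_iff (N := pLvl p K) (Nat.le_succ _)).1 hy
    refine FA.GaussKolyvagin.eq_one_of_weight_one K hp5 hy1 fun d => ?_
    have hd : FA.Ext.sigmaK p K d ^ (p - 1) = 1 := by
      rw [← map_pow, ← ZMod.card_units p, pow_card_eq_one, map_one]
    have h := hy2 _ hd
    rw [one_mul, expo_sigmaK, ← FA.IwasawaStructure.classAut_eq_actCl] at h
    exact h
  by_contra hne
  set A := wPart p (p ^ (n + 1)) L 1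
  letI : MulAction (L ≃ₐ[K] L) A :=
    { smul := fun g a => ⟨actCl g a.1, actCl_mem_wPart_over g a.2⟩
      one_smul := fun a => Subtype.ext (by
        show actCl (1 : L ≃ₐ[K] L) a.1 = a.1
        rw [map_one]; rfl)
      mul_smul := fun g h a => Subtype.ext (by
        show actCl (g * h) a.1 = actCl g (actCl h a.1)
        rw [map_mul]; rfl) }
  haveI : IsGalois ℚ L := IsCyclotomicExtension.isGalois {p ^ (n + 1)} ℚ L
  haveI : IsGalois K L := IsGalois.tower_top_of_isGalois ℚ K L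
  have hG : IsPGroup p (L ≃ₐ[K] L) := by
    refine IsPGroup.of_card (n := n) ?_
    have h := Module.finrank_mul_finrank ℚ K L
    rw [IsCyclotomicExtension.Rat.finrank p K, IsCyclotomicExtension.Rat.finrank (p ^ (n + 1)) L,
      Nat.totient_prime hp.out, Nat.totient_prime_pow_succ hp.out, mul_comm (p ^ n),
      ← IsGalois.card_aut_eq_finrank K L] at h
    exact Nat.eq_of_mul_eq_mul_left (Nat.sub_pos_of_lt hp.out.one_lt) h
  have hA : IsPGroup p A := fun a => ⟨pLvl p L, Subtype.ext a.2.1⟩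
  have hdvd : p ∣ Nat.card A := by
    obtain ⟨a, ha⟩ := hA.exists_card_eq
    rcases Nat.eq_zero_or_pos a with rfl | hpos
    · rw [pow_zero, Nat.card_eq_one_iff_unique] at ha
      haveI := ha.1
      exact absurd (congrArg Subtype.val (Subsingleton.elim (⟨x, hx⟩ : A) 1)) hne
    · rw [ha]; exact dvd_pow_self p hpos.ne'
  obtain ⟨w, hw, hw1⟩ := hG.exists_fixed_point_of_prime_dvd_card_of_fixed_point A hdvd
    (a := 1) fun g => Subtype.ext (map_one (actCl g))
  obtain ⟨y, hy, hyw⟩ := (fixed_iff p n (K := K) (by omega) odd_one).1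
    ⟨w.2, fun g => congrArg Subtype.val (hw g)⟩
  rw [hbase y hy, map_one] at hyw
  exact hw1 (Subtype.ext hyw)

/-- **The decomposition over the odd weights.** -/
theorem exists_decomp (hp5 : 5 ≤ p) [IsCMField L]
    (hplus : ¬ p ∣ classNumber (maximalRealSubfield L)) :
    ∃ E : (∀ i : oddIdx p, wPart p (p ^ (n + 1)) L i.1) ≃* pPart p L,
      ∀ x, (E x : ClassGroup (𝓞 L)) = ∏ i, (x i : ClassGroup (𝓞 L)) := by
  have hlt : ∀ i ∈ oddIdx p, i < p - 1 := fun i hi => by
    obtain ⟨-, -, h⟩ := (mem_oddIdx (p := p) (by omega)).1 hi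
    omega
  let Φ : (∀ i : oddIdx p, wPart p (p ^ (n + 1)) L i.1) →* pPart p L :=
    { toFun := fun x => ⟨∏ i, (x i : ClassGroup (𝓞 L)),
        Subgroup.prod_mem _ fun i _ => wPart_le_pPart _ (x i).2⟩
      map_one' := Subtype.ext (Finset.prod_eq_one fun i _ => rfl)
      map_mul' := fun x y => Subtype.ext (Finset.prod_mul_distrib) }
  have hΦ : ∀ x (j : oddIdx p),
      wProj p (p ^ (n + 1)) L j (Φ x : ClassGroup (𝓞 L)) = x j := fun x j => by
    show wProj p (p ^ (n + 1)) L j (∏ i, (x i : ClassGroup (𝓞 L))) = _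
    rw [map_prod, Fintype.prod_eq_single j fun i hij => wProj_eq_one_of_mem (hlt i i.2) (hlt j j.2)
      (fun h => hij (Subtype.ext h)) (x i).2, wProj_of_mem dvd_level (x j).2]
  have hbij : Function.Bijective Φ := by
    refine ⟨fun x y h => funext fun j => Subtype.ext (by rw [← hΦ x j, ← hΦ y j, h]),
      fun z => ⟨fun i => ⟨wProj p (p ^ (n + 1)) L i z.1, wProj_mem dvd_level _ _⟩,
        Subtype.ext ?_⟩⟩
    refine Eq.trans ?_ (prod_wProj (n := n) z.2)
    refine (Finset.prod_coe_sort (oddIdx p) fun i => wProj p (p ^ (n + 1)) L i z.1).trans ?_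
    refine Finset.prod_subset (fun i hi => Finset.mem_range.2 (hlt i hi)) fun i hi hno => ?_
    rcases Nat.even_or_odd i with hev | hodd
    · exact eq_one_of_even hp5 hplus hev (wProj_mem dvd_level i _)
    · obtain rfl : i = 1 := by
        by_contra h1
        exact hno (Finset.mem_erase.2 ⟨h1, Finset.mem_filter.2 ⟨hi, hodd⟩⟩)
      exact eq_one_of_weight_one hp5 (wProj_mem dvd_level 1 _)
  exact ⟨MulEquiv.ofBijective Φ hbij, fun x => rfl⟩

end FA.VandiverStructure
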